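import Fermat.Agent.S25.PROP.H5970.Gen

/-!
# S25, package G3: morphisms from affine points, the addition map, and the final reduction
(helper5970; Mathlib-only besides `Gen`; namespace `Fermat.Agent.S25.PROP.H5970`)

* `existsUnique_hom_of_affine_points`: a natural family of affine points of `Y`, indexed by an
  "admissible" class of affine points of `X` (stable under precomposition, containing an affine
  open neighbourhood of every point), comes from a unique morphism `X ⟶ Y`.
* `exists_addMap_of_points`: from a pointwise addition `α i x s` (for `R`-points `x` of `C`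
  factoring through a chart `U i` and `R`-points `s` of `J`), natural in `R`, independent of the
  chart and over the base, a morphism `a : C ×_S J ⟶ J` over `S` inducing it.
* `ReachPts`: affine points of `J` reachable from the zero section by `n` pointwise additions.
* `properties_of_pointwise_addition` / `isProper_of_pointwise_addition`: **final reduction of G3**.
  If `c : C ⟶ Spec k` is proper with `C` connected, `k` algebraically closed, and every geometric
  point of `J` is reachable from the zero section by adding `g` points, then `J ⟶ Spec k` is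
  quasi-compact, universally closed and geometrically connected (and proper, if separated and
  locally of finite type).
-/

set_option autoImplicit false

universe u

open CategoryTheory CategoryTheory.Limits AlgebraicGeometry

namespace Fermat.Agent.S25.PROP.H5970

/-- Two morphisms agree if they agree on affine open neighbourhoods of every point. -/
theorem hom_ext_of_affine_nbhds {Z Y : Scheme.{u}} (f g : Z ⟶ Y)
    (H : ∀ z : Z, ∃ (R : CommRingCat.{u}) (q : Spec R ⟶ Z), IsOpenImmersion q ∧ z ∈ Set.range q ∧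
      q ≫ f = q ≫ g) : f = g := by
  choose R q hq hz hfg using H
  let 𝒰 : Z.OpenCover :=
    { I₀ := Z
      X := fun z => Spec (R z)
      f := fun z => q z
      mem₀ := by
        rw [Scheme.presieve₀_mem_precoverage_iff]
        exact ⟨fun z => ⟨z, hz z⟩, fun z => hq z⟩ }
  exact 𝒰.hom_ext _ _ hfg

/-- Two morphisms agree if they agree on all affine points. -/
theorem hom_ext_of_affine_points {Z Y : Scheme.{u}} (f g : Z ⟶ Y)
    (H : ∀ (R : CommRingCat.{u}) (q : Spec R ⟶ Z), q ≫ f = q ≫ g) : f = g :=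
  Z.affineCover.hom_ext _ _ fun _ => H _ _

/-- Every point of an open subset of a scheme has an affine open neighbourhood inside it,
presented as an open immersion from a spectrum. -/
theorem exists_affine_nbhd {Z : Scheme.{u}} (W : Z.Opens) (z : Z) (hz : z ∈ W) :
    ∃ (R : CommRingCat.{u}) (q : Spec R ⟶ Z), IsOpenImmersion q ∧ z ∈ Set.range q ∧
      Set.range q ⊆ W := by
  let 𝒱 := W.toScheme.affineOpenCover
  obtain ⟨w, hw⟩ := 𝒱.covers ⟨z, hz⟩
  have : IsOpenImmersion (𝒱.f (𝒱.idx ⟨z, hz⟩)) := 𝒱.map_prop _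
  refine ⟨𝒱.X (𝒱.idx ⟨z, hz⟩), 𝒱.f (𝒱.idx ⟨z, hz⟩) ≫ W.ι, inferInstance, ⟨w, ?_⟩, ?_⟩
  · simp only [Scheme.Hom.comp_apply, hw]
    rfl
  · rintro _ ⟨a, rfl⟩
    simp only [Scheme.Hom.comp_apply]
    exact (𝒱.f (𝒱.idx ⟨z, hz⟩) a).2

/-- **Morphisms from natural transformations on affine points.**  Let `adm` be a class of affine
points of `X`, stable under precomposition, containing an affine open neighbourhood of every
point.  A natural family of affine points `φ p` of `Y`, for admissible `p`, comes from a unique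
morphism `X ⟶ Y`. -/
theorem existsUnique_hom_of_affine_points {X Y : Scheme.{u}}
    (adm : ∀ (R : CommRingCat.{u}), (Spec R ⟶ X) → Prop)
    (adm_comp : ∀ {R R' : CommRingCat.{u}} (ψ : R ⟶ R') (p : Spec R ⟶ X), adm R p →
      adm R' (Spec.map ψ ≫ p))
    (adm_cover : ∀ x : X, ∃ (R : CommRingCat.{u}) (p : Spec R ⟶ X),
      IsOpenImmersion p ∧ adm R p ∧ x ∈ Set.range p)
    (φ : ∀ (R : CommRingCat.{u}) (p : Spec R ⟶ X), adm R p → (Spec R ⟶ Y))
    (φ_nat : ∀ {R R' : CommRingCat.{u}} (ψ : R ⟶ R') (p : Spec R ⟶ X) (hp : adm R p),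
      φ R' (Spec.map ψ ≫ p) (adm_comp ψ p hp) = Spec.map ψ ≫ φ R p hp) :
    ∃! m : X ⟶ Y, ∀ (R : CommRingCat.{u}) (p : Spec R ⟶ X) (hp : adm R p), p ≫ m = φ R p hp := by
  have φ_congr : ∀ {R : CommRingCat.{u}} {p p' : Spec R ⟶ X} (h : p = p') (hp : adm R p)
      (hp' : adm R p'), φ R p hp = φ R p' hp' := by
    intro R p p' h hp hp'
    subst h
    rfl
  -- naturality for arbitrary morphisms between spectra
  have φ_nat' : ∀ {R R' : CommRingCat.{u}} (q : Spec R' ⟶ Spec R) (p : Spec R ⟶ X) (hp : adm R p)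
      (hp' : adm R' (q ≫ p)), φ R' (q ≫ p) hp' = q ≫ φ R p hp := by
    intro R R' q p hp hp'
    obtain ⟨ψ, rfl⟩ := Spec.map_surjective q
    exact φ_nat ψ p hp
  have adm_comp' : ∀ {R R' : CommRingCat.{u}} (q : Spec R' ⟶ Spec R) (p : Spec R ⟶ X),
      adm R p → adm R' (q ≫ p) := by
    intro R R' q p hp
    obtain ⟨ψ, rfl⟩ := Spec.map_surjective q
    exact adm_comp ψ p hp
  choose R P hP hadm hx using adm_cover
  let 𝒰 : X.OpenCover :=
    { I₀ := X
      X := fun x => Spec (R x)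
      f := fun x => P x
      mem₀ := by
        rw [Scheme.presieve₀_mem_precoverage_iff]
        exact ⟨fun x => ⟨x, hx x⟩, fun x => hP x⟩ }
  have hcompat : ∀ x y : X, pullback.fst (P x) (P y) ≫ φ (R x) (P x) (hadm x) =
      pullback.snd (P x) (P y) ≫ φ (R y) (P y) (hadm y) := by
    intro x y
    refine hom_ext_of_affine_points _ _ fun R' q => ?_
    rw [← Category.assoc, ← Category.assoc,
      ← φ_nat' (q ≫ pullback.fst (P x) (P y)) (P x) (hadm x) (adm_comp' _ _ (hadm x)),
      ← φ_nat' (q ≫ pullback.snd (P x) (P y)) (P y) (hadm y) (adm_comp' _ _ (hadm y))]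
    exact φ_congr (by rw [Category.assoc, Category.assoc, pullback.condition]) _ _
  let m : X ⟶ Y := 𝒰.glueMorphisms (fun x => φ (R x) (P x) (hadm x)) hcompat
  have hm : ∀ x : X, P x ≫ m = φ (R x) (P x) (hadm x) := fun x =>
    𝒰.ι_glueMorphisms (fun x => φ (R x) (P x) (hadm x)) hcompat x
  refine ⟨m, ?_, ?_⟩
  · intro R₀ p hp
    refine hom_ext_of_affine_nbhds _ _ fun z => ?_
    obtain ⟨R', q, hq, hzq, hqW⟩ := exists_affine_nbhd (p ⁻¹ᵁ (P (p z)).opensRange) z
      (by simpa using hx (p z))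
    refine ⟨R', q, hq, hzq, ?_⟩
    have hrange : Set.range (q ≫ p) ⊆ Set.range (P (p z)) := by
      rintro _ ⟨a, rfl⟩
      have := hqW ⟨a, rfl⟩
      simpa using this
    let l : Spec R' ⟶ Spec (R (p z)) := IsOpenImmersion.lift (P (p z)) (q ≫ p) hrange
    have hl : l ≫ P (p z) = q ≫ p := IsOpenImmersion.lift_fac _ _ _
    calc q ≫ p ≫ m = l ≫ P (p z) ≫ m := by rw [← Category.assoc, ← hl, Category.assoc]
      _ = l ≫ φ (R (p z)) (P (p z)) (hadm (p z)) := by rw [hm]
      _ = φ R' (l ≫ P (p z)) (adm_comp' _ _ (hadm _)) := (φ_nat' _ _ _ _).symm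
      _ = φ R' (q ≫ p) (adm_comp' _ _ hp) := φ_congr hl _ _
      _ = q ≫ φ R₀ p hp := φ_nat' _ _ _ _
  · intro m' hm'
    refine 𝒰.hom_ext _ _ fun x => ?_
    exact (hm' (R x) (P x) (hadm x)).trans (hm x).symm

section AddMap

variable {C S J : Scheme.{u}} (c : C ⟶ S) (j : J ⟶ S) {ι : Type*} (U : ι → C.Opens)

/-- **The addition map from pointwise data.**  Let `U i` be opens covering `C` and suppose that
for every affine scheme `Spec R`, every `R`-point `x` of `C` factoring through some `U i` and every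
`R`-point `s` of `J` (over the same point of `S`) we are given an `R`-point `α i x s` of `J`, over
`S`, natural in `R` and independent of `i`.  Then there is a morphism `a : C ×_S J ⟶ J` over `S`
inducing `α` on points. -/
theorem exists_addMap_of_points (hU : ∀ x : C, ∃ i, x ∈ U i)
    (α : ∀ (i : ι) (R : CommRingCat.{u}) (x : Spec R ⟶ C) (s : Spec R ⟶ J),
      x ≫ c = s ≫ j → Set.range x ⊆ U i → (Spec R ⟶ J))
    (α_over : ∀ (i : ι) (R : CommRingCat.{u}) (x : Spec R ⟶ C) (s : Spec R ⟶ J)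
      (h : x ≫ c = s ≫ j) (hx : Set.range x ⊆ U i), α i R x s h hx ≫ j = s ≫ j)
    (α_nat : ∀ (i : ι) {R R' : CommRingCat.{u}} (ψ : R ⟶ R') (x : Spec R ⟶ C) (s : Spec R ⟶ J)
      (h : x ≫ c = s ≫ j) (hx : Set.range x ⊆ U i)
      (h' : (Spec.map ψ ≫ x) ≫ c = (Spec.map ψ ≫ s) ≫ j)
      (hx' : Set.range (Spec.map ψ ≫ x) ⊆ U i),
      α i R' (Spec.map ψ ≫ x) (Spec.map ψ ≫ s) h' hx' = Spec.map ψ ≫ α i R x s h hx)
    (α_compat : ∀ (i i' : ι) (R : CommRingCat.{u}) (x : Spec R ⟶ C) (s : Spec R ⟶ J)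
      (h : x ≫ c = s ≫ j) (hx : Set.range x ⊆ U i) (hx' : Set.range x ⊆ U i'),
      α i R x s h hx = α i' R x s h hx') :
    ∃ a : pullback c j ⟶ J, a ≫ j = pullback.snd c j ≫ j ∧
      ∀ (i : ι) (R : CommRingCat.{u}) (x : Spec R ⟶ C) (s : Spec R ⟶ J)
        (h : x ≫ c = s ≫ j) (hx : Set.range x ⊆ U i), pullback.lift x s h ≫ a = α i R x s h hx := by
  have α_congr : ∀ (i : ι) {R : CommRingCat.{u}} {x x' : Spec R ⟶ C} {s s' : Spec R ⟶ J}
      (ex : x = x') (es : s = s') (h : x ≫ c = s ≫ j) (hx : Set.range x ⊆ U i)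
      (h' : x' ≫ c = s' ≫ j) (hx' : Set.range x' ⊆ U i),
      α i R x s h hx = α i R x' s' h' hx' := by
    intro i R x x' s s' ex es h hx h' hx'
    subst ex es
    rfl
  let adm : ∀ (R : CommRingCat.{u}), (Spec R ⟶ pullback c j) → Prop := fun R p =>
    ∃ i, Set.range (p ≫ pullback.fst c j) ⊆ U i
  have hcond : ∀ {R : CommRingCat.{u}} (p : Spec R ⟶ pullback c j),
      (p ≫ pullback.fst c j) ≫ c = (p ≫ pullback.snd c j) ≫ j := by
    intro R p
    rw [Category.assoc, Category.assoc, pullback.condition]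
  have adm_comp : ∀ {R R' : CommRingCat.{u}} (ψ : R ⟶ R') (p : Spec R ⟶ pullback c j),
      adm R p → adm R' (Spec.map ψ ≫ p) := by
    rintro R R' ψ p ⟨i, hi⟩
    refine ⟨i, ?_⟩
    rintro _ ⟨a, rfl⟩
    exact hi ⟨Spec.map ψ a, by simp⟩
  have adm_cover : ∀ x : ↥(pullback c j), ∃ (R : CommRingCat.{u}) (p : Spec R ⟶ pullback c j),
      IsOpenImmersion p ∧ adm R p ∧ x ∈ Set.range p := by
    intro x
    obtain ⟨i, hi⟩ := hU (pullback.fst c j x)
    obtain ⟨R, q, hq, hxq, hqW⟩ := exists_affine_nbhd (pullback.fst c j ⁻¹ᵁ U i) x hi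
    refine ⟨R, q, hq, ⟨i, ?_⟩, hxq⟩
    rintro _ ⟨a, rfl⟩
    have := hqW ⟨a, rfl⟩
    simpa using this
  let φ : ∀ (R : CommRingCat.{u}) (p : Spec R ⟶ pullback c j), adm R p → (Spec R ⟶ J) :=
    fun R p hp => α hp.choose R (p ≫ pullback.fst c j) (p ≫ pullback.snd c j) (hcond p)
      hp.choose_spec
  have φ_eq : ∀ (i : ι) (R : CommRingCat.{u}) (p : Spec R ⟶ pullback c j) (hp : adm R p)
      (hi : Set.range (p ≫ pullback.fst c j) ⊆ U i),
      φ R p hp = α i R (p ≫ pullback.fst c j) (p ≫ pullback.snd c j) (hcond p) hi :=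
    fun i R p hp hi => α_compat _ _ _ _ _ _ _ _
  have φ_nat : ∀ {R R' : CommRingCat.{u}} (ψ : R ⟶ R') (p : Spec R ⟶ pullback c j)
      (hp : adm R p), φ R' (Spec.map ψ ≫ p) (adm_comp ψ p hp) = Spec.map ψ ≫ φ R p hp := by
    intro R R' ψ p hp
    obtain ⟨i, hi⟩ := hp
    have hi' : Set.range ((Spec.map ψ ≫ p) ≫ pullback.fst c j) ⊆ U i := by
      rintro _ ⟨a, rfl⟩
      exact hi ⟨Spec.map ψ a, by simp⟩
    rw [φ_eq i R' _ _ hi', φ_eq i R p _ hi]
    have hi'' : Set.range (Spec.map ψ ≫ p ≫ pullback.fst c j) ⊆ U i := by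
      rwa [← Category.assoc]
    rw [← α_nat i ψ _ _ (hcond p) hi (by rw [← Category.assoc, ← Category.assoc]; exact hcond _)
      hi'']
    exact α_congr i (Category.assoc _ _ _) (Category.assoc _ _ _) _ _ _ _
  obtain ⟨m, hm, -⟩ := existsUnique_hom_of_affine_points adm adm_comp adm_cover φ φ_nat
  refine ⟨m, ?_, ?_⟩
  · refine hom_ext_of_affine_nbhds _ _ fun z => ?_
    obtain ⟨R, q, hq, hadm, hz⟩ := adm_cover z
    refine ⟨R, q, hq, hz, ?_⟩
    obtain ⟨i, hi⟩ := hadm
    rw [← Category.assoc, hm R q ⟨i, hi⟩, φ_eq i R q _ hi, α_over, Category.assoc]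
  · intro i R x s h hx
    have hi : Set.range (pullback.lift x s h ≫ pullback.fst c j) ⊆ U i := by
      rwa [pullback.lift_fst]
    rw [hm R _ ⟨i, hi⟩, φ_eq i R _ _ hi]
    exact α_congr i (pullback.lift_fst _ _ _) (pullback.lift_snd _ _ _) _ _ _ _

end AddMap


/-- Affine points of `J` reachable from the zero section `z` by `n` pointwise additions `α`. -/
inductive ReachPts {C S J : Scheme.{u}} (c : C ⟶ S) (j : J ⟶ S) {ι : Type*} (U : ι → C.Opens)
    (α : ∀ (i : ι) (R : CommRingCat.{u}) (x : Spec R ⟶ C) (s : Spec R ⟶ J),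
      x ≫ c = s ≫ j → Set.range x ⊆ U i → (Spec R ⟶ J)) (z : S ⟶ J) {R : CommRingCat.{u}} :
    ℕ → (Spec R ⟶ J) → Prop
  | zero (σ : Spec R ⟶ S) : ReachPts c j U α z 0 (σ ≫ z)
  | succ (n : ℕ) (i : ι) (x : Spec R ⟶ C) (s : Spec R ⟶ J) (h : x ≫ c = s ≫ j)
      (hx : Set.range x ⊆ U i) (hs : ReachPts c j U α z n s) :
      ReachPts c j U α z (n + 1) (α i R x s h hx)

theorem ReachPts.reach {C S J : Scheme.{u}} {c : C ⟶ S} {j : J ⟶ S} {ι : Type*}
    {U : ι → C.Opens}
    {α : ∀ (i : ι) (R : CommRingCat.{u}) (x : Spec R ⟶ C) (s : Spec R ⟶ J),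
      x ≫ c = s ≫ j → Set.range x ⊆ U i → (Spec R ⟶ J)} {z : S ⟶ J}
    (a : pullback c j ⟶ J)
    (ha : ∀ (i : ι) (R : CommRingCat.{u}) (x : Spec R ⟶ C) (s : Spec R ⟶ J)
      (h : x ≫ c = s ≫ j) (hx : Set.range x ⊆ U i), pullback.lift x s h ≫ a = α i R x s h hx)
    {R : CommRingCat.{u}} {n : ℕ} {s : Spec R ⟶ J} (hs : ReachPts c j U α z n s) :
    Reach c j a z n s := by
  induction hs with
  | zero σ => exact Reach.zero σ
  | succ n i x s h hx hs ih =>
    rw [← ha i R x s h hx]
    exact Reach.succ n x s h ih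

section Final

variable {k : Type u} [Field k] [IsAlgClosed k] {C J : Scheme.{u}}
  (c : C ⟶ Spec (CommRingCat.of k)) [IsProper c] [ConnectedSpace C]
  (j : J ⟶ Spec (CommRingCat.of k)) {ι : Type*} (U : ι → C.Opens) (hU : ∀ x : C, ∃ i, x ∈ U i)
  (α : ∀ (i : ι) (R : CommRingCat.{u}) (x : Spec R ⟶ C) (s : Spec R ⟶ J),
    x ≫ c = s ≫ j → Set.range x ⊆ U i → (Spec R ⟶ J))
  (α_over : ∀ (i : ι) (R : CommRingCat.{u}) (x : Spec R ⟶ C) (s : Spec R ⟶ J)
    (h : x ≫ c = s ≫ j) (hx : Set.range x ⊆ U i), α i R x s h hx ≫ j = s ≫ j)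
  (α_nat : ∀ (i : ι) {R R' : CommRingCat.{u}} (ψ : R ⟶ R') (x : Spec R ⟶ C) (s : Spec R ⟶ J)
    (h : x ≫ c = s ≫ j) (hx : Set.range x ⊆ U i)
    (h' : (Spec.map ψ ≫ x) ≫ c = (Spec.map ψ ≫ s) ≫ j)
    (hx' : Set.range (Spec.map ψ ≫ x) ⊆ U i),
    α i R' (Spec.map ψ ≫ x) (Spec.map ψ ≫ s) h' hx' = Spec.map ψ ≫ α i R x s h hx)
  (α_compat : ∀ (i i' : ι) (R : CommRingCat.{u}) (x : Spec R ⟶ C) (s : Spec R ⟶ J)
    (h : x ≫ c = s ≫ j) (hx : Set.range x ⊆ U i) (hx' : Set.range x ⊆ U i'),
    α i R x s h hx = α i' R x s h hx')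
  (z : Spec (CommRingCat.of k) ⟶ J) (hz : z ≫ j = 𝟙 _) (g : ℕ)
  (hEff : ∀ (K : Type u) [Field K] [IsAlgClosed K] (s : Spec (CommRingCat.of K) ⟶ J),
    ReachPts c j U α z g s)

include hU α_over α_nat α_compat hz hEff

/-- **Final reduction of G3.**  If every geometric point of `J` is reachable from the zero section
by `g` pointwise additions of points of the proper connected curve `C`, then `J ⟶ Spec k` is
quasi-compact, universally closed and geometrically connected. -/
theorem properties_of_pointwise_addition :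
    QuasiCompact j ∧ UniversallyClosed j ∧ GeometricallyConnected j := by
  obtain ⟨a, ha, haα⟩ := exists_addMap_of_points c j U hU α α_over α_nat α_compat
  exact properties_of_reach c j a ha z hz g fun K _ _ s => (hEff K s).reach a haα

theorem quasiCompact_of_pointwise_addition : QuasiCompact j :=
  (properties_of_pointwise_addition c j U hU α α_over α_nat α_compat z hz g hEff).1

theorem universallyClosed_of_pointwise_addition : UniversallyClosed j :=
  (properties_of_pointwise_addition c j U hU α α_over α_nat α_compat z hz g hEff).2.1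

theorem geometricallyConnected_of_pointwise_addition : GeometricallyConnected j :=
  (properties_of_pointwise_addition c j U hU α α_over α_nat α_compat z hz g hEff).2.2

theorem isProper_of_pointwise_addition [IsSeparated j] [LocallyOfFiniteType j] : IsProper j := by
  have : UniversallyClosed j :=
    universallyClosed_of_pointwise_addition c j U hU α α_over α_nat α_compat z hz g hEff
  exact {}

end Final

end Fermat.Agent.S25.PROP.H5970
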