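import Fermat.Agent.S25.PROP.H5970.Add
import Fermat.Agent.S25.PROP.H5970.Points
import Fermat.Agent.S25.VALSEP

/-!
# S25 / PROP (helper5970): the representing scheme is proper and geometrically connected

`proper_connected_of_pres`: from a `Presentation`, a `Dictionary`, `PointTwists` and the
degree-zero characterisation `hdeg`, any smooth scheme representing the rigidified `Pic⁰`
functor is proper and geometrically connected over the algebraically closed field `k`.

* separated: valuative criterion + `valuative_separated` (VALSEP) + `Rep.ext`;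
* quasi-compact, universally closed, geometrically connected:
  `properties_of_pointwise_addition` applied to the pointwise addition `addPt`, every geometric
  point being reached from the zero section in `𝒯.genus` steps (`PointTwists.eff`).
-/

set_option autoImplicit false

universe u

namespace Fermat.Agent.S25.PROP.H5970

open CategoryTheory CategoryTheory.Limits AlgebraicGeometry AlgebraicGeometry.RelPicard
  NeronModelInfra GoodReductionJacobian

variable {k : Type u} [Field k] {C : Scheme.{u}} {c : C ⟶ Spec (CommRingCat.of k)}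
  {ε : SchemeHomOver (𝟙 (Spec (CommRingCat.of k))) c} (pres : Presentation c ε)
  (𝒯 : PointTwists pres.𝒞) (𝒟 : Dictionary c ε pres.𝒞) {D : RelativePic0Designation k c}
  (hrep : RepresentsRelSubPic c ε (algEquivZeroCut c ε) D)
  (hdeg : ∀ {T : Scheme.{u}} (t : T ⟶ Spec (CommRingCat.of k))
    (M : RigidifiedLineBundle c ε t), FibrewiseAlgEquivZero M ↔ IsDeg0 𝒟 t M)

/-- The two charts, indexed by `Bool`. -/
def chartOpens : Bool → C.Opens := fun b => cond b pres.U₁ pres.U₂

theorem chartOpens_cover (x : C) : ∃ b, x ∈ chartOpens pres b := by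
  have hx : x ∈ pres.U₁ ⊔ pres.U₂ := by rw [pres.cover]; trivial
  rcases hx with hx | hx
  · exact ⟨true, hx⟩
  · exact ⟨false, hx⟩

theorem chartOpens_disj {R : CommRingCat.{u}} (x : Spec R ⟶ C) (b : Bool)
    (hx : Set.range x ⊆ chartOpens pres b) :
    Set.range x ⊆ (pres.U₁ : Set C) ∨ Set.range x ⊆ (pres.U₂ : Set C) := by
  cases b
  · exact Or.inr hx
  · exact Or.inl hx

/-- The pointwise addition in the form required by `properties_of_pointwise_addition`. -/
noncomputable def addα (b : Bool) (R : CommRingCat.{u}) (x : Spec R ⟶ C) (s : Spec R ⟶ D.P)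
    (h : x ≫ c = s ≫ D.toBase) (hx : Set.range x ⊆ chartOpens pres b) : Spec R ⟶ D.P :=
  addPt pres 𝒯 𝒟 hrep hdeg R x s h (chartOpens_disj pres x b hx)

/-- Every geometric point of the Jacobian is reached from the zero section by `genus`
additions of points of the curve. -/
theorem reach_all (K : Type u) [Field K] [IsAlgClosed K] (s : Spec (CommRingCat.of K) ⟶ D.P) :
    ReachPts c D.toBase (chartOpens pres) (addα pres 𝒯 𝒟 hrep hdeg) D.zeroSection 𝒯.genus s := by
  let i : Algebra k K := algInst (CommRingCat.of K) (s ≫ D.toBase)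
  have hτ : s ≫ D.toBase = tR k K := (tR_algInst (CommRingCat.of K) (s ≫ D.toBase)).symm
  let s₀ : SchemeHomOver (tR k K) D.toBase := ⟨s, hτ⟩
  obtain ⟨N, hN⟩ := exists_rep (𝒟 := 𝒟) (hrep := hrep) s₀
  obtain ⟨M, hMp, e0, eL, hstep⟩ := 𝒯.eff K N (hN.isPic0 hdeg)
  have key : ∀ (l : ℕ) (hl : l ≤ 𝒯.genus), ∃ sl : SchemeHomOver (tR k K) D.toBase,
      Rep 𝒟 hrep K sl (M ⟨l, Nat.lt_succ_of_le hl⟩) ∧
      ReachPts c D.toBase (chartOpens pres) (addα pres 𝒯 𝒟 hrep hdeg) D.zeroSection l sl.1 := by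
    intro l
    induction l with
    | zero =>
      intro hl
      exact ⟨_, (rep_zero 𝒟 hrep K).congr ⟨e0.some.symm⟩, ReachPts.zero (tR k K)⟩
    | succ l ih =>
      intro hl
      obtain ⟨sl, hsl, hreach⟩ := ih (Nat.le_of_succ_le hl)
      obtain ⟨sl', hsl'⟩ := exists_point (hrep := hrep) hdeg
        (hMp ⟨l + 1, Nat.lt_succ_of_le hl⟩)
      refine ⟨sl', hsl', ?_⟩
      rcases hstep ⟨l, hl⟩ with ⟨x, hx⟩ | ⟨x, hx⟩
      · let xs : Spec (CommRingCat.of K) ⟶ C := ptSch pres.affine₁ pres.e₁ x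
        have hxc : xs ≫ c = tR k K := ptSch_comp c pres.affine₁ pres.e₁ pres.alg₁ x
        have hxU : Set.range xs ⊆ (pres.U₁ : Set C) := range_ptSch pres.affine₁ pres.e₁ x
        have hpt : pt₁ pres xs hxc hxU = x := ptAlg_ptSch c pres.affine₁ pres.e₁ pres.alg₁ x hxc hxU
        have hrel : AddRel pres 𝒯 𝒟 hrep K xs hxc sl sl' :=
          ⟨_, _, hsl, hsl', Or.inl ⟨hxU, by rw [hpt]; exact hx⟩⟩
        have h1 : xs ≫ c = sl.1 ≫ D.toBase := hxc.trans sl.2.symm
        have h2 := addPt_spec hdeg (CommRingCat.of K) xs sl.1 h1 (Or.inl hxU) i sl.2 sl' hrel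
        have h3 := ReachPts.succ (c := c) (j := D.toBase) (U := chartOpens pres)
          (α := addα pres 𝒯 𝒟 hrep hdeg) (z := D.zeroSection) l true xs sl.1 h1 hxU hreach
        rw [← h2]
        exact h3
      · let xs : Spec (CommRingCat.of K) ⟶ C := ptSch pres.affine₂ pres.e₂ x
        have hxc : xs ≫ c = tR k K := ptSch_comp c pres.affine₂ pres.e₂ pres.alg₂ x
        have hxU : Set.range xs ⊆ (pres.U₂ : Set C) := range_ptSch pres.affine₂ pres.e₂ x
        have hpt : pt₂ pres xs hxc hxU = x := ptAlg_ptSch c pres.affine₂ pres.e₂ pres.alg₂ x hxc hxU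
        have hrel : AddRel pres 𝒯 𝒟 hrep K xs hxc sl sl' :=
          ⟨_, _, hsl, hsl', Or.inr ⟨hxU, by rw [hpt]; exact hx⟩⟩
        have h1 : xs ≫ c = sl.1 ≫ D.toBase := hxc.trans sl.2.symm
        have h2 := addPt_spec hdeg (CommRingCat.of K) xs sl.1 h1 (Or.inr hxU) i sl.2 sl' hrel
        have h3 := ReachPts.succ (c := c) (j := D.toBase) (U := chartOpens pres)
          (α := addα pres 𝒯 𝒟 hrep hdeg) (z := D.zeroSection) l false xs sl.1 h1 hxU hreach
        rw [← h2]
        exact h3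
  obtain ⟨sg, hsg, hreach⟩ := key 𝒯.genus le_rfl
  have hsg' : Rep 𝒟 hrep K sg N := hsg.congr eL
  have h4 : sg = s₀ := hsg'.ext hN
  rw [h4] at hreach
  exact hreach

include pres 𝒟 hrep hdeg in
/-- Separatedness, by the valuative criterion and `valuative_separated`. -/
theorem isSeparated_toBase [IsAlgClosed k] [LocallyOfFiniteType D.toBase] :
    IsSeparated D.toBase := by
  have : QuasiSeparated D.toBase := quasiSeparated_of_locallyOfFiniteType_field D.toBase
  apply IsSeparated.of_valuativeCriterion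
  intro S
  refine ⟨fun l₁ l₂ => ?_⟩
  apply CommSq.LiftStruct.ext
  let iV : Algebra k S.R := algInst (CommRingCat.of S.R) S.i₂
  let iK : Algebra k S.K := ((algebraMap S.R S.K).comp (algebraMap k S.R)).toAlgebra
  have : IsScalarTower k S.R S.K := IsScalarTower.of_algebraMap_eq fun a => rfl
  have hτ : tR k S.R = S.i₂ := tR_algInst (CommRingCat.of S.R) S.i₂
  let s₁ : SchemeHomOver (tR k S.R) D.toBase := ⟨l₁.l, l₁.fac_right.trans hτ.symm⟩
  let s₂ : SchemeHomOver (tR k S.R) D.toBase := ⟨l₂.l, l₂.fac_right.trans hτ.symm⟩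
  obtain ⟨N₁, h₁⟩ := exists_rep (𝒟 := 𝒟) (hrep := hrep) s₁
  obtain ⟨N₂, h₂⟩ := exists_rep (𝒟 := 𝒟) (hrep := hrep) s₂
  let φ : S.R →ₐ[k] S.K := IsScalarTower.toAlgHom k S.R S.K
  obtain ⟨M₁, hM₁⟩ := exists_isBC pres.𝒞 φ N₁
  obtain ⟨M₂, hM₂⟩ := exists_isBC pres.𝒞 φ N₂
  have hb₁ := h₁.bc φ hM₁
  have hb₂ := h₂.bc φ hM₂
  have hpt : postComp s₁ (specHomOver k φ) = postComp s₂ (specHomOver k φ) := by
    apply Subtype.ext
    change Spec.map (CommRingCat.ofHom (algebraMap S.R S.K)) ≫ l₁.l =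
      Spec.map (CommRingCat.ofHom (algebraMap S.R S.K)) ≫ l₂.l
    rw [l₁.fac_left, l₂.fac_left]
  rw [hpt] at hb₁
  have e : Nonempty (M₁.Iso M₂) := hb₁.iso hb₂
  have e' := valuative_separated pres.𝒞 S.R S.K N₁ N₂ (h₁.isPic0 hdeg) (h₂.isPic0 hdeg) M₁ M₂
    hM₁ hM₂ e
  have h₂' : Rep 𝒟 hrep S.R s₂ N₁ := h₂.congr ⟨e'.some.symm⟩
  exact congrArg Subtype.val (h₁.ext h₂')

include pres 𝒯 𝒟 hrep hdeg in
/-- **PROP.**  The representing scheme is proper and geometrically connected. -/
theorem proper_connected_of_pres [IsAlgClosed k] [IsProper c] [IsIntegral C]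
    (hsm : Smooth D.toBase) : IsProper D.toBase ∧ GeometricallyConnected D.toBase := by
  have : LocallyOfFiniteType D.toBase := inferInstance
  have hsep : IsSeparated D.toBase := isSeparated_toBase pres 𝒟 hrep hdeg
  have key := properties_of_pointwise_addition c D.toBase (chartOpens pres)
    (chartOpens_cover pres) (addα pres 𝒯 𝒟 hrep hdeg)
    (fun b R x s h hx => addPt_over hdeg R x s h (chartOpens_disj pres x b hx))
    (fun b R R' ψ x s h hx h' hx' => addPt_nat hdeg ψ x s h (chartOpens_disj pres x b hx) h'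
      (chartOpens_disj pres _ b hx'))
    (fun b b' R x s h hx hx' => rfl)
    D.zeroSection D.zeroSection_toBase 𝒯.genus (reach_all pres 𝒯 𝒟 hrep hdeg)
  obtain ⟨hqc, huc, hgc⟩ := key
  exact ⟨{}, hgc⟩

end Fermat.Agent.S25.PROP.H5970
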