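import Fermat.Agent.S25.PROP.H5970.Rep

/-!
# S25 / PROP (helper5970): adding a point of the curve to a point of the Jacobian

* `pt₁ pt₂ pt₁₂`: the algebra points of the charts of a `Presentation` attached to a scheme
  point of `C` over `Spec k`.
* `TwRel pres 𝒯 R x hxc N L'`: "`L'` is the twist of `N` by the point `x`" (in whichever chart
  contains `x`; well defined by `PointTwists.overlap`).
* `AddRel`: the induced relation on `R`-points of the Jacobian; existence, uniqueness and base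
  change.
* `addPt`: the resulting operation on affine points (`CommRingCat` level), `addPt_spec`,
  `addPt_over`, `addPt_nat`.
-/

set_option autoImplicit false

universe u

namespace Fermat.Agent.S25.PROP.H5970

open CategoryTheory CategoryTheory.Limits AlgebraicGeometry AlgebraicGeometry.RelPicard
  NeronModelInfra GoodReductionJacobian

variable {k : Type u} [Field k] {C : Scheme.{u}} {c : C ⟶ Spec (CommRingCat.of k)}
  {ε : SchemeHomOver (𝟙 (Spec (CommRingCat.of k))) c} (pres : Presentation c ε)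

theorem affine₁₂ : IsAffineOpen (pres.U₁ ⊓ pres.U₂) := by
  rw [pres.inter₁]
  exact pres.affine₁.basicOpen _

section pts

variable {R : Type u} [CommRing R]

theorem range_inf (x : Spec (CommRingCat.of R) ⟶ C) (hx₁ : Set.range x ⊆ (pres.U₁ : Set C))
    (hx₂ : Set.range x ⊆ (pres.U₂ : Set C)) :
    Set.range x ⊆ ((pres.U₁ ⊓ pres.U₂ : C.Opens) : Set C) :=
  fun _ hy => ⟨hx₁ hy, hx₂ hy⟩

variable [Algebra k R] (x : Spec (CommRingCat.of R) ⟶ C) (hxc : x ≫ c = tR k R)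

/-- The point of the first chart. -/
noncomputable def pt₁ (hx : Set.range x ⊆ (pres.U₁ : Set C)) : pres.𝒞.A₁ →ₐ[k] R :=
  ptAlg c pres.affine₁ pres.e₁ pres.alg₁ x hxc hx

/-- The point of the second chart. -/
noncomputable def pt₂ (hx : Set.range x ⊆ (pres.U₂ : Set C)) : pres.𝒞.A₂ →ₐ[k] R :=
  ptAlg c pres.affine₂ pres.e₂ pres.alg₂ x hxc hx

/-- The point of the intersection of the charts. -/
noncomputable def pt₁₂ (hx : Set.range x ⊆ ((pres.U₁ ⊓ pres.U₂ : C.Opens) : Set C)) :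
    pres.𝒞.A₁₂ →ₐ[k] R :=
  ptAlg c (affine₁₂ pres) pres.e₁₂ pres.alg₁₂ x hxc hx

theorem pt₁_eq (hx₁ : Set.range x ⊆ (pres.U₁ : Set C))
    (hx : Set.range x ⊆ ((pres.U₁ ⊓ pres.U₂ : C.Opens) : Set C)) :
    pt₁ pres x hxc hx₁ = (pt₁₂ pres x hxc hx).comp pres.𝒞.r₁ :=
  ptAlg_res c pres.affine₁ pres.e₁ pres.alg₁ (affine₁₂ pres) inf_le_left pres.e₁₂ pres.alg₁₂
    pres.𝒞.r₁ pres.res₁ x hxc hx hx₁

theorem pt₂_eq (hx₂ : Set.range x ⊆ (pres.U₂ : Set C))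
    (hx : Set.range x ⊆ ((pres.U₁ ⊓ pres.U₂ : C.Opens) : Set C)) :
    pt₂ pres x hxc hx₂ = (pt₁₂ pres x hxc hx).comp pres.𝒞.r₂ :=
  ptAlg_res c pres.affine₂ pres.e₂ pres.alg₂ (affine₁₂ pres) inf_le_right pres.e₁₂ pres.alg₁₂
    pres.𝒞.r₂ pres.res₂ x hxc hx hx₂

end pts

variable (𝒯 : PointTwists pres.𝒞)

/-- `L'` is the twist of `N` by the point `x` of the curve. -/
def TwRel (R : Type u) [CommRing R] [Algebra k R] (x : Spec (CommRingCat.of R) ⟶ C)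
    (hxc : x ≫ c = tR k R) (N L' : GluedModule (pres.𝒞.chart R)) : Prop :=
  (∃ hx : Set.range x ⊆ (pres.U₁ : Set C), 𝒯.tw₁ R (pt₁ pres x hxc hx) N L') ∨
  (∃ hx : Set.range x ⊆ (pres.U₂ : Set C), 𝒯.tw₂ R (pt₂ pres x hxc hx) N L')

section TwRel

variable {pres 𝒯} {R : Type u} [CommRing R] [Algebra k R] {x : Spec (CommRingCat.of R) ⟶ C}
  {hxc : x ≫ c = tR k R} {N L' : GluedModule (pres.𝒞.chart R)}

theorem TwRel.to₁ (h : TwRel pres 𝒯 R x hxc N L') (hx₁ : Set.range x ⊆ (pres.U₁ : Set C)) :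
    𝒯.tw₁ R (pt₁ pres x hxc hx₁) N L' := by
  rcases h with ⟨_, h⟩ | ⟨hx₂, h⟩
  · exact h
  · have hx := range_inf pres x hx₁ hx₂
    rw [pt₂_eq pres x hxc hx₂ hx] at h
    rw [pt₁_eq pres x hxc hx₁ hx]
    exact (𝒯.overlap _ N L').mpr h

theorem TwRel.to₂ (h : TwRel pres 𝒯 R x hxc N L') (hx₂ : Set.range x ⊆ (pres.U₂ : Set C)) :
    𝒯.tw₂ R (pt₂ pres x hxc hx₂) N L' := by
  rcases h with ⟨hx₁, h⟩ | ⟨_, h⟩
  · have hx := range_inf pres x hx₁ hx₂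
    rw [pt₁_eq pres x hxc hx₁ hx] at h
    rw [pt₂_eq pres x hxc hx₂ hx]
    exact (𝒯.overlap _ N L').mp h
  · exact h

variable (pres 𝒯 x hxc N) in
theorem TwRel.exists (hx : Set.range x ⊆ (pres.U₁ : Set C) ∨ Set.range x ⊆ (pres.U₂ : Set C))
    (hN : IsPic0 pres.𝒞 N) : ∃ L', IsPic0 pres.𝒞 L' ∧ TwRel pres 𝒯 R x hxc N L' := by
  rcases hx with hx | hx
  · obtain ⟨L', hL', h⟩ := 𝒯.exists₁ (pt₁ pres x hxc hx) N hN
    exact ⟨L', hL', Or.inl ⟨hx, h⟩⟩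
  · obtain ⟨L', hL', h⟩ := 𝒯.exists₂ (pt₂ pres x hxc hx) N hN
    exact ⟨L', hL', Or.inr ⟨hx, h⟩⟩

theorem TwRel.unique {L'' : GluedModule (pres.𝒞.chart R)} (h : TwRel pres 𝒯 R x hxc N L')
    (h' : TwRel pres 𝒯 R x hxc N L'') (hN : IsPic0 pres.𝒞 N) (hL' : IsPic0 pres.𝒞 L')
    (hL'' : IsPic0 pres.𝒞 L'') : Nonempty (L'.Iso L'') := by
  rcases h with ⟨hx, h⟩ | ⟨hx, h⟩
  · exact 𝒯.unique₁ _ N L' L'' hN hL' hL'' h (h'.to₁ hx)
  · exact 𝒯.unique₂ _ N L' L'' hN hL' hL'' h (h'.to₂ hx)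

theorem TwRel.iso {M M' : GluedModule (pres.𝒞.chart R)} (h : TwRel pres 𝒯 R x hxc N L')
    (e : Nonempty (N.Iso M)) (e' : Nonempty (L'.Iso M')) : TwRel pres 𝒯 R x hxc M M' := by
  rcases h with ⟨hx, h⟩ | ⟨hx, h⟩
  · exact Or.inl ⟨hx, 𝒯.iso₁ _ N L' M M' h e e'⟩
  · exact Or.inr ⟨hx, 𝒯.iso₂ _ N L' M M' h e e'⟩

theorem TwRel.bc {R' : Type u} [CommRing R'] [Algebra k R'] (φ : R →ₐ[k] R')
    {M M' : GluedModule (pres.𝒞.chart R')} (h : TwRel pres 𝒯 R x hxc N L')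
    (hM : GluedModule.IsBC (pres.𝒞.chartHom φ) N M)
    (hM' : GluedModule.IsBC (pres.𝒞.chartHom φ) L' M')
    (hxc' : ((specHomOver k φ).1 ≫ x) ≫ c = tR k R') :
    TwRel pres 𝒯 R' ((specHomOver k φ).1 ≫ x) hxc' M M' := by
  rcases h with ⟨hx, h⟩ | ⟨hx, h⟩
  · have hx' : Set.range ((specHomOver k φ).1 ≫ x) ⊆ (pres.U₁ : Set C) :=
      range_map_comp (CommRingCat.ofHom (φ : R →+* R')) x hx
    refine Or.inl ⟨hx', ?_⟩
    have h2 := 𝒯.bc₁ φ _ N L' M M' h hM hM'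
    rw [pt₁, ptAlg_comp c pres.affine₁ pres.e₁ pres.alg₁ φ x hxc hx hxc' hx']
    exact h2
  · have hx' : Set.range ((specHomOver k φ).1 ≫ x) ⊆ (pres.U₂ : Set C) :=
      range_map_comp (CommRingCat.ofHom (φ : R →+* R')) x hx
    refine Or.inr ⟨hx', ?_⟩
    have h2 := 𝒯.bc₂ φ _ N L' M M' h hM hM'
    rw [pt₂, ptAlg_comp c pres.affine₂ pres.e₂ pres.alg₂ φ x hxc hx hxc' hx']
    exact h2

end TwRel

variable (𝒟 : Dictionary c ε pres.𝒞) {D : RelativePic0Designation k c}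
  (hrep : RepresentsRelSubPic c ε (algEquivZeroCut c ε) D)

/-- `s'` is the sum of the point `s` of the Jacobian and (the class of) the point `x` of the
curve. -/
def AddRel (R : Type u) [CommRing R] [Algebra k R] (x : Spec (CommRingCat.of R) ⟶ C)
    (hxc : x ≫ c = tR k R) (s s' : SchemeHomOver (tR k R) D.toBase) : Prop :=
  ∃ N L' : GluedModule (pres.𝒞.chart R),
    Rep 𝒟 hrep R s N ∧ Rep 𝒟 hrep R s' L' ∧ TwRel pres 𝒯 R x hxc N L'

section AddRel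

variable (hdeg : ∀ {T : Scheme.{u}} (t : T ⟶ Spec (CommRingCat.of k))
  (M : RigidifiedLineBundle c ε t), FibrewiseAlgEquivZero M ↔ IsDeg0 𝒟 t M)

variable {R : Type u} [CommRing R] [Algebra k R] (x : Spec (CommRingCat.of R) ⟶ C)
  (hxc : x ≫ c = tR k R)

include hdeg in
theorem AddRel.exists (hx : Set.range x ⊆ (pres.U₁ : Set C) ∨ Set.range x ⊆ (pres.U₂ : Set C))
    (s : SchemeHomOver (tR k R) D.toBase) : ∃ s', AddRel pres 𝒯 𝒟 hrep R x hxc s s' := by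
  obtain ⟨N, hN⟩ := exists_rep (𝒟 := 𝒟) (hrep := hrep) s
  obtain ⟨L', hL', h⟩ := TwRel.exists pres 𝒯 x hxc N hx (hN.isPic0 hdeg)
  obtain ⟨s', hs'⟩ := exists_point (hrep := hrep) hdeg hL'
  exact ⟨s', N, L', hN, hs', h⟩

variable {pres 𝒯 𝒟 hrep x hxc}

include hdeg in
theorem AddRel.unique {s s' s'' : SchemeHomOver (tR k R) D.toBase}
    (h : AddRel pres 𝒯 𝒟 hrep R x hxc s s') (h' : AddRel pres 𝒯 𝒟 hrep R x hxc s s'') :
    s' = s'' := by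
  obtain ⟨N, L', hN, hL', ht⟩ := h
  obtain ⟨N₂, L₂, hN₂, hL₂, ht₂⟩ := h'
  have ht₂' : TwRel pres 𝒯 R x hxc N L₂ := ht₂.iso (hN₂.iso hN) ⟨GluedModule.Iso.refl L₂⟩
  have e := ht.unique ht₂' (hN.isPic0 hdeg) (hL'.isPic0 hdeg) (hL₂.isPic0 hdeg)
  exact hL'.ext (hL₂.congr ⟨e.some.symm⟩)

theorem AddRel.bc {R' : Type u} [CommRing R'] [Algebra k R'] (φ : R →ₐ[k] R')
    {s s' : SchemeHomOver (tR k R) D.toBase} (h : AddRel pres 𝒯 𝒟 hrep R x hxc s s')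
    (hxc' : ((specHomOver k φ).1 ≫ x) ≫ c = tR k R') :
    AddRel pres 𝒯 𝒟 hrep R' ((specHomOver k φ).1 ≫ x) hxc' (postComp s (specHomOver k φ))
      (postComp s' (specHomOver k φ)) := by
  obtain ⟨N, L', hN, hL', ht⟩ := h
  obtain ⟨M, hM⟩ := exists_isBC pres.𝒞 φ N
  obtain ⟨M', hM'⟩ := exists_isBC pres.𝒞 φ L'
  exact ⟨M, M', hN.bc φ hM, hL'.bc φ hM', ht.bc φ hM hM' hxc'⟩

end AddRel

section addPt

variable (hdeg : ∀ {T : Scheme.{u}} (t : T ⟶ Spec (CommRingCat.of k))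
  (M : RigidifiedLineBundle c ε t), FibrewiseAlgEquivZero M ↔ IsDeg0 𝒟 t M)

/-- Addition of an affine point of the curve to an affine point of the Jacobian. -/
noncomputable def addPt (R : CommRingCat.{u}) (x : Spec R ⟶ C) (s : Spec R ⟶ D.P)
    (h : x ≫ c = s ≫ D.toBase)
    (hx : Set.range x ⊆ (pres.U₁ : Set C) ∨ Set.range x ⊆ (pres.U₂ : Set C)) : Spec R ⟶ D.P :=
  letI := algInst R (s ≫ D.toBase)
  (Classical.choose (AddRel.exists pres 𝒯 𝒟 hrep hdeg (R := R) x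
    (h.trans (tR_algInst R (s ≫ D.toBase)).symm) hx
    ⟨s, (tR_algInst R (s ≫ D.toBase)).symm⟩)).1

variable {pres 𝒯 𝒟 hrep}

theorem addPt_spec (R : CommRingCat.{u}) (x : Spec R ⟶ C) (s : Spec R ⟶ D.P)
    (h : x ≫ c = s ≫ D.toBase)
    (hx : Set.range x ⊆ (pres.U₁ : Set C) ∨ Set.range x ⊆ (pres.U₂ : Set C))
    (inst : Algebra k R) (hτ : s ≫ D.toBase = @tR k _ R _ inst)
    (s' : @SchemeHomOver _ _ _ (@tR k _ R _ inst) D.toBase)
    (hrel : @AddRel k _ C c ε pres 𝒯 𝒟 D hrep R _ inst x (h.trans hτ) ⟨s, hτ⟩ s') :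
    addPt pres 𝒯 𝒟 hrep hdeg R x s h hx = s'.1 := by
  obtain rfl := algInst_unique R (s ≫ D.toBase) inst hτ.symm
  let _ : Algebra k R := algInst R (s ≫ D.toBase)
  exact congrArg Subtype.val (AddRel.unique hdeg (Classical.choose_spec
    (AddRel.exists pres 𝒯 𝒟 hrep hdeg (R := R) x
    (h.trans (tR_algInst R (s ≫ D.toBase)).symm) hx
    ⟨s, (tR_algInst R (s ≫ D.toBase)).symm⟩)) hrel)

theorem addPt_over (R : CommRingCat.{u}) (x : Spec R ⟶ C) (s : Spec R ⟶ D.P)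
    (h : x ≫ c = s ≫ D.toBase)
    (hx : Set.range x ⊆ (pres.U₁ : Set C) ∨ Set.range x ⊆ (pres.U₂ : Set C)) :
    addPt pres 𝒯 𝒟 hrep hdeg R x s h hx ≫ D.toBase = s ≫ D.toBase := by
  let _ : Algebra k R := algInst R (s ≫ D.toBase)
  exact (Classical.choose (AddRel.exists pres 𝒯 𝒟 hrep hdeg (R := R) x
    (h.trans (tR_algInst R (s ≫ D.toBase)).symm) hx
    ⟨s, (tR_algInst R (s ≫ D.toBase)).symm⟩)).2.trans (tR_algInst R (s ≫ D.toBase))

theorem addPt_nat {R R' : CommRingCat.{u}} (ψ : R ⟶ R') (x : Spec R ⟶ C) (s : Spec R ⟶ D.P)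
    (h : x ≫ c = s ≫ D.toBase)
    (hx : Set.range x ⊆ (pres.U₁ : Set C) ∨ Set.range x ⊆ (pres.U₂ : Set C))
    (h' : (Spec.map ψ ≫ x) ≫ c = (Spec.map ψ ≫ s) ≫ D.toBase)
    (hx' : Set.range (Spec.map ψ ≫ x) ⊆ (pres.U₁ : Set C) ∨
      Set.range (Spec.map ψ ≫ x) ⊆ (pres.U₂ : Set C)) :
    addPt pres 𝒯 𝒟 hrep hdeg R' (Spec.map ψ ≫ x) (Spec.map ψ ≫ s) h' hx' =
      Spec.map ψ ≫ addPt pres 𝒯 𝒟 hrep hdeg R x s h hx := by
  let i : Algebra k R := algInst R (s ≫ D.toBase)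
  let i' : Algebra k R' := (ψ.hom.comp (algebraMap k R)).toAlgebra
  let φ : R →ₐ[k] R' := { ψ.hom with commutes' := fun a => rfl }
  have hτ : s ≫ D.toBase = tR k R := (tR_algInst R (s ≫ D.toBase)).symm
  have hτ' : (Spec.map ψ ≫ s) ≫ D.toBase = tR k R' := by
    rw [Category.assoc, hτ]
    exact (specHomOver k φ).2
  have hspec := Classical.choose_spec (AddRel.exists pres 𝒯 𝒟 hrep hdeg (R := R) x
    (h.trans (tR_algInst R (s ≫ D.toBase)).symm) hx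
    ⟨s, (tR_algInst R (s ≫ D.toBase)).symm⟩)
  have hbc := AddRel.bc φ hspec (h'.trans hτ')
  exact addPt_spec hdeg R' (Spec.map ψ ≫ x) (Spec.map ψ ≫ s) h' hx' i' hτ' _ hbc

end addPt

end Fermat.Agent.S25.PROP.H5970
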