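import Fermat.Agent.S25.SchDefs

/-!
# S25 / PROP (helper5970): points of an affine chart as algebra homomorphisms

* `algInst R τ`: the `k`-algebra structure on `R` given by `τ : Spec R ⟶ Spec k`, `tR_algInst`.
* `exists_algHom_of_specHomOver`: morphisms over `Spec k` between spectra of `k`-algebras are
  `k`-algebra maps.
* `ptRing hU x hx : Γ(C, U) ⟶ R`: the ring map of an `R`-point `x` of `C` factoring through the
  affine open `U`; uniqueness, naturality, restriction, `k`-linearity.
* `ptAlg hU e alg x hxc hx : A →ₐ[k] R` for a coordinate ring `e : A ≃+* Γ(C, U)`, with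
  naturality (`ptAlg_comp`), restriction (`ptAlg_res`) and the converse `ptSch` (`ptAlg_ptSch`).
-/

set_option autoImplicit false

universe u

namespace Fermat.Agent.S25.PROP.H5970

open CategoryTheory CategoryTheory.Limits AlgebraicGeometry AlgebraicGeometry.RelPicard
  NeronModelInfra GoodReductionJacobian

variable {k : Type u} [Field k]

/-- The `k`-algebra structure on `R` defined by a morphism `Spec R ⟶ Spec k`. -/
@[reducible] noncomputable def algInst (R : CommRingCat.{u})
    (τ : Spec R ⟶ Spec (CommRingCat.of k)) : Algebra k R :=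
  (Spec.preimage τ).hom.toAlgebra

theorem tR_algInst (R : CommRingCat.{u}) (τ : Spec R ⟶ Spec (CommRingCat.of k)) :
    @tR k _ R _ (algInst R τ) = τ := by
  let := algInst R τ
  change Spec.map (CommRingCat.ofHom (algebraMap k R)) = τ
  exact Spec.map_preimage τ

/-- An algebra structure on `R` is determined by its structure morphism. -/
theorem algInst_unique (R : CommRingCat.{u}) (τ : Spec R ⟶ Spec (CommRingCat.of k))
    (inst : Algebra k R) (h : @tR k _ R _ inst = τ) : inst = algInst R τ := by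
  have h1 : @tR k _ R _ inst = @tR k _ R _ (algInst R τ) := h.trans (tR_algInst R τ).symm
  unfold tR at h1
  have h2 := Spec.map_injective h1
  have h3 := congrArg CommRingCat.Hom.hom h2
  apply Algebra.algebra_ext
  intro a
  exact RingHom.congr_fun h3 a

/-- A morphism over `Spec k` between spectra of `k`-algebras comes from a `k`-algebra map. -/
theorem exists_algHom_of_specHomOver {R R' : Type u} [CommRing R] [Algebra k R] [CommRing R']
    [Algebra k R'] (s : SchemeHomOver (tR k R') (tR k R)) :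
    ∃ φ : R →ₐ[k] R', specHomOver k φ = s := by
  obtain ⟨ψ, hψ⟩ := Spec.map_surjective s.1
  have h2 : ψ.hom.comp (algebraMap k R) = algebraMap k R' := by
    have h3 := s.2
    rw [← hψ] at h3
    unfold tR at h3
    rw [← Spec.map_comp] at h3
    have h4 := Spec.map_injective h3
    have h5 := congrArg CommRingCat.Hom.hom h4
    simpa using h5
  refine ⟨{ ψ.hom with commutes' := fun a => RingHom.congr_fun h2 a }, ?_⟩
  apply Subtype.ext
  exact hψ

section ptRing

variable {C : Scheme.{u}} {U : C.Opens} (hU : IsAffineOpen U)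

/-- The ring homomorphism `Γ(C, U) ⟶ R` attached to an `R`-point of `C` factoring through the
affine open `U`. -/
noncomputable def ptRing {R : CommRingCat.{u}} (x : Spec R ⟶ C)
    (hx : Set.range x ⊆ (U : Set C)) : Γ(C, U) ⟶ R :=
  Spec.preimage (IsOpenImmersion.lift hU.fromSpec x (by rw [hU.range_fromSpec]; exact hx))

theorem ptRing_spec {R : CommRingCat.{u}} (x : Spec R ⟶ C) (hx : Set.range x ⊆ (U : Set C)) :
    Spec.map (ptRing hU x hx) ≫ hU.fromSpec = x := by
  rw [ptRing, Spec.map_preimage, IsOpenImmersion.lift_fac]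

theorem ptRing_unique {R : CommRingCat.{u}} (x : Spec R ⟶ C) (hx : Set.range x ⊆ (U : Set C))
    (ρ : Γ(C, U) ⟶ R) (h : Spec.map ρ ≫ hU.fromSpec = x) : ρ = ptRing hU x hx := by
  apply Spec.map_injective
  rw [← cancel_mono hU.fromSpec, h, ptRing_spec]

theorem range_map_fromSpec {R : CommRingCat.{u}} (ρ : Γ(C, U) ⟶ R) :
    Set.range (Spec.map ρ ≫ hU.fromSpec) ⊆ (U : Set C) := by
  rintro _ ⟨a, rfl⟩
  rw [← hU.range_fromSpec]
  exact ⟨Spec.map ρ a, by simp⟩

theorem ptRing_map_fromSpec {R : CommRingCat.{u}} (ρ : Γ(C, U) ⟶ R) :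
    ptRing hU (Spec.map ρ ≫ hU.fromSpec) (range_map_fromSpec hU ρ) = ρ :=
  (ptRing_unique hU _ _ ρ rfl).symm

theorem range_map_comp {R R' : CommRingCat.{u}} (ψ : R ⟶ R') (x : Spec R ⟶ C)
    (hx : Set.range x ⊆ (U : Set C)) : Set.range (Spec.map ψ ≫ x) ⊆ (U : Set C) := by
  rintro _ ⟨a, rfl⟩
  exact hx ⟨Spec.map ψ a, by simp⟩

theorem ptRing_comp {R R' : CommRingCat.{u}} (ψ : R ⟶ R') (x : Spec R ⟶ C)
    (hx : Set.range x ⊆ (U : Set C)) (hx' : Set.range (Spec.map ψ ≫ x) ⊆ (U : Set C)) :
    ptRing hU (Spec.map ψ ≫ x) hx' = ptRing hU x hx ≫ ψ := by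
  symm
  apply ptRing_unique
  rw [Spec.map_comp, Category.assoc, ptRing_spec]

/-- Compatibility with restriction to a smaller affine open. -/
theorem ptRing_res {V : C.Opens} (hV : IsAffineOpen V) (hVU : V ≤ U) {R : CommRingCat.{u}}
    (x : Spec R ⟶ C) (hxV : Set.range x ⊆ (V : Set C)) (hxU : Set.range x ⊆ (U : Set C)) :
    C.presheaf.map (homOfLE hVU).op ≫ ptRing hV x hxV = ptRing hU x hxU := by
  apply ptRing_unique
  rw [Spec.map_comp, Category.assoc, IsAffineOpen.map_fromSpec hU hV, ptRing_spec]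

theorem fromSpec_comp_eq (c : C ⟶ Spec (CommRingCat.of k)) :
    hU.fromSpec ≫ c = Spec.map (CommRingCat.ofHom (sectionAlg c U)) := by
  have h := IsAffineOpen.SpecMap_appLE_fromSpec c (isAffineOpen_top (Spec (CommRingCat.of k))) hU
    le_top
  rw [← h, IsAffineOpen.fromSpec_top, Scheme.isoSpec_Spec_inv, ← Spec.map_comp]
  rfl

/-- The point ring homomorphism is a `k`-algebra map. -/
theorem ptRing_sectionAlg (c : C ⟶ Spec (CommRingCat.of k)) {R : Type u} [CommRing R]
    [Algebra k R] (x : Spec (CommRingCat.of R) ⟶ C) (hxc : x ≫ c = tR k R)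
    (hx : Set.range x ⊆ (U : Set C)) (a : k) :
    (ptRing hU x hx).hom (sectionAlg c U a) = algebraMap k R a := by
  have h1 : Spec.map (CommRingCat.ofHom (sectionAlg c U) ≫ ptRing hU x hx) =
      Spec.map (CommRingCat.ofHom (algebraMap k R)) := by
    rw [Spec.map_comp, ← fromSpec_comp_eq hU c, ← Category.assoc, ptRing_spec, hxc]
    rfl
  have h2 := Spec.map_injective h1
  have h3 := congrArg (fun f => f.hom a) h2
  simpa using h3

end ptRing

section ptAlg

variable {C : Scheme.{u}} (c : C ⟶ Spec (CommRingCat.of k)) {U : C.Opens} (hU : IsAffineOpen U)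
  {A : Type u} [CommRing A] [Algebra k A] (e : A ≃+* Γ(C, U))
  (alg : ∀ a : k, e (algebraMap k A a) = sectionAlg c U a)

/-- The `k`-algebra point of the coordinate ring `A ≃ Γ(C, U)` attached to an `R`-point of `C`
over `Spec k` factoring through the affine open `U`. -/
noncomputable def ptAlg {R : Type u} [CommRing R] [Algebra k R]
    (x : Spec (CommRingCat.of R) ⟶ C) (hxc : x ≫ c = tR k R) (hx : Set.range x ⊆ (U : Set C)) :
    A →ₐ[k] R :=
  { (ptRing hU x hx).hom.comp (e : A →+* Γ(C, U)) with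
    commutes' := fun a => by
      change (ptRing hU x hx).hom (e (algebraMap k A a)) = _
      rw [alg, ptRing_sectionAlg hU c x hxc hx] }

theorem ptAlg_apply {R : Type u} [CommRing R] [Algebra k R]
    (x : Spec (CommRingCat.of R) ⟶ C) (hxc : x ≫ c = tR k R) (hx : Set.range x ⊆ (U : Set C))
    (a : A) : ptAlg c hU e alg x hxc hx a = (ptRing hU x hx).hom (e a) := rfl

/-- Naturality in the base ring. -/
theorem ptAlg_comp {R R' : Type u} [CommRing R] [Algebra k R] [CommRing R'] [Algebra k R']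
    (φ : R →ₐ[k] R') (x : Spec (CommRingCat.of R) ⟶ C) (hxc : x ≫ c = tR k R)
    (hx : Set.range x ⊆ (U : Set C))
    (hxc' : ((specHomOver k φ).1 ≫ x) ≫ c = tR k R')
    (hx' : Set.range ((specHomOver k φ).1 ≫ x) ⊆ (U : Set C)) :
    ptAlg c hU e alg ((specHomOver k φ).1 ≫ x) hxc' hx' = φ.comp (ptAlg c hU e alg x hxc hx) := by
  apply AlgHom.ext
  intro a
  rw [ptAlg_apply, AlgHom.comp_apply, ptAlg_apply]
  have h := ptRing_comp hU (CommRingCat.ofHom (φ : R →+* R')) x hx hx'
  change ptRing hU ((specHomOver k φ).1 ≫ x) hx' = _ at h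
  rw [h]
  rfl

/-- Compatibility with restriction to a smaller affine chart. -/
theorem ptAlg_res {V : C.Opens} (hV : IsAffineOpen V) (hVU : V ≤ U)
    {A' : Type u} [CommRing A'] [Algebra k A'] (e' : A' ≃+* Γ(C, V))
    (alg' : ∀ a : k, e' (algebraMap k A' a) = sectionAlg c V a) (r : A →ₐ[k] A')
    (hr : ∀ a : A, e' (r a) = (C.presheaf.map (homOfLE hVU).op).hom (e a))
    {R : Type u} [CommRing R] [Algebra k R]
    (x : Spec (CommRingCat.of R) ⟶ C) (hxc : x ≫ c = tR k R)
    (hxV : Set.range x ⊆ (V : Set C)) (hxU : Set.range x ⊆ (U : Set C)) :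
    ptAlg c hU e alg x hxc hxU = (ptAlg c hV e' alg' x hxc hxV).comp r := by
  apply AlgHom.ext
  intro a
  rw [AlgHom.comp_apply, ptAlg_apply, ptAlg_apply, hr, ← ptRing_res hU hV hVU x hxV hxU]
  rfl

/-- The scheme point of an algebra point of the chart. -/
noncomputable def ptSch {R : Type u} [CommRing R] [Algebra k R] (y : A →ₐ[k] R) :
    Spec (CommRingCat.of R) ⟶ C :=
  Spec.map (CommRingCat.ofHom ((y : A →+* R).comp (e.symm : Γ(C, U) →+* A))) ≫ hU.fromSpec

theorem range_ptSch {R : Type u} [CommRing R] [Algebra k R] (y : A →ₐ[k] R) :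
    Set.range (ptSch hU e y) ⊆ (U : Set C) :=
  range_map_fromSpec hU _

include alg in
theorem ptSch_comp {R : Type u} [CommRing R] [Algebra k R] (y : A →ₐ[k] R) :
    ptSch hU e y ≫ c = tR k R := by
  unfold ptSch tR
  rw [Category.assoc, fromSpec_comp_eq hU c, ← Spec.map_comp]
  congr 1
  ext a
  change y (e.symm (sectionAlg c U a)) = algebraMap k R a
  rw [← alg a, RingEquiv.symm_apply_apply, AlgHom.commutes]

theorem ptAlg_ptSch {R : Type u} [CommRing R] [Algebra k R] (y : A →ₐ[k] R)
    (hxc : ptSch hU e y ≫ c = tR k R) (hx : Set.range (ptSch hU e y) ⊆ (U : Set C)) :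
    ptAlg c hU e alg (ptSch hU e y) hxc hx = y := by
  apply AlgHom.ext
  intro a
  rw [ptAlg_apply]
  have h := ptRing_map_fromSpec hU
    (CommRingCat.ofHom ((y : A →+* R).comp (e.symm : Γ(C, U) →+* A)))
  change ptRing hU (ptSch hU e y) hx = _ at h
  rw [h]
  change y (e.symm (e a)) = y a
  rw [RingEquiv.symm_apply_apply]

end ptAlg

end Fermat.Agent.S25.PROP.H5970
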