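import Mathlib

/-!
# S25, package G3 (generic, interface-independent part) — helper5970

Everything here is Mathlib-only.  Namespace `Fermat.Agent.S25.PROP.H5970`.

* `quasiCompact_of_comp_surjective`, `geometricallyConnected_of_comp_surjective`,
  `isProper_of_comp_surjective`: quasi-compactness, geometric connectedness and properness
  descend along a surjection `f : Y ⟶ J`.
* `surjective_of_geometric_points`: surjectivity can be tested on geometric points.
* `geometricallyConnected_of_isAlgClosed`: a connected scheme, locally of finite type over an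
  algebraically closed field, is geometrically connected (uses closed points = rational points).
* `quasiSeparated_of_locallyOfFiniteType_field`: locally of finite type over a field implies
  quasi-separated (needed for the valuative criterion of separatedness).
* fibre powers `fibPow c n` with structure map `fibPowHom c n` (`C^0 = S`, `C^(n+1) = C ×_S C^n`),
  proper / universally open / geometrically connected when `c` is.
* `iterAdd`: from an "addition of a point" map `a : C ×_S J ⟶ J` over `S` and a section `z`, the
  iterated map `C^n ⟶ J`; `Reach` = points reachable by adding `n` points; `Reach.exists_lift`.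
* main results `quasiCompact_of_reach`, `universallyClosed_of_reach`,
  `geometricallyConnected_of_reach`, `isProper_of_reach`: if every geometric point of `J` is
  reachable from the zero section by adding `g` points of the proper connected curve `C`, then
  `J ⟶ Spec k` is quasi-compact, universally closed, geometrically connected, and proper as soon
  as it is separated and locally of finite type.
-/

set_option autoImplicit false

universe u

open CategoryTheory CategoryTheory.Limits AlgebraicGeometry

namespace Fermat.Agent.S25.PROP.H5970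

/-! ### Descent along a surjection -/

/-- Quasi-compactness descends along a surjection. -/
theorem quasiCompact_of_comp_surjective {Y J S : Scheme.{u}} (f : Y ⟶ J) (j : J ⟶ S)
    [Surjective f] [QuasiCompact (f ≫ j)] : QuasiCompact j := by
  refine ⟨fun U hU hUc => ?_⟩
  have h1 : IsCompact ((f ≫ j) ⁻¹' U) := QuasiCompact.isCompact_preimage (f := f ≫ j) U hU hUc
  have h2 : f '' ((f ≫ j) ⁻¹' U) = j ⁻¹' U := by
    ext x
    constructor
    · rintro ⟨y, hy, rfl⟩
      simpa using hy
    · intro hx
      obtain ⟨y, rfl⟩ := f.surjective x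
      exact ⟨y, by simpa using hx, rfl⟩
  rw [← h2]
  exact h1.image f.continuous

/-- Geometric connectedness descends along a surjection. -/
theorem geometricallyConnected_of_comp_surjective {Y J S : Scheme.{u}} (f : Y ⟶ J) (j : J ⟶ S)
    [Surjective f] [GeometricallyConnected (f ≫ j)] : GeometricallyConnected j := by
  refine ⟨geometrically_iff_of_isClosedUnderIsomorphisms.mpr fun K _ x ↦ ?_⟩
  have h0 : ConnectedSpace ↥(pullback (f ≫ j) x) :=
    pullback_of_geometrically (GeometricallyConnected.geometrically_connectedSpace (f := f ≫ j)) K x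
  have h1 : ConnectedSpace ↥(pullback f (pullback.fst j x)) :=
    (pullbackRightPullbackFstIso j x f).hom.homeomorph.connectedSpace_iff.mpr h0
  have h2 : Surjective (pullback.snd f (pullback.fst j x)) := inferInstance
  exact (pullback.snd f (pullback.fst j x)).surjective.connectedSpace
    (pullback.snd f (pullback.fst j x)).continuous

/-- Properness descends along a surjection, given separatedness and finite type. -/
theorem isProper_of_comp_surjective {Y J S : Scheme.{u}} (f : Y ⟶ J) (j : J ⟶ S)
    [Surjective f] [IsProper (f ≫ j)] [IsSeparated j] [LocallyOfFiniteType j] : IsProper j := by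
  have : UniversallyClosed j := UniversallyClosed.of_comp_surjective f j
  exact {}

/-- A morphism is surjective as soon as every geometric point of the target lifts (up to the
underlying point). -/
theorem surjective_of_geometric_points {Y J : Scheme.{u}} (m : Y ⟶ J)
    (h : ∀ (K : Type u) [Field K] [IsAlgClosed K] (s : Spec (CommRingCat.of K) ⟶ J),
      ∃ y : Y, m y = s (IsLocalRing.closedPoint K)) : Surjective m := by
  refine ⟨fun x => ?_⟩
  let K : Type u := AlgebraicClosure (J.residueField x)
  let s : Spec (CommRingCat.of K) ⟶ J :=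
    Spec.map (CommRingCat.ofHom (algebraMap (J.residueField x) K)) ≫ J.fromSpecResidueField x
  obtain ⟨y, hy⟩ := h K s
  refine ⟨y, hy.trans ?_⟩
  exact Scheme.fromSpecResidueField_apply x _

/-- A morphism is surjective as soon as every geometric point of the target factors through
it. -/
theorem surjective_of_geometric_points_lift {Y J : Scheme.{u}} (m : Y ⟶ J)
    (h : ∀ (K : Type u) [Field K] [IsAlgClosed K] (s : Spec (CommRingCat.of K) ⟶ J),
      ∃ s' : Spec (CommRingCat.of K) ⟶ Y, s' ≫ m = s) : Surjective m := by
  refine surjective_of_geometric_points m fun K _ _ s => ?_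
  obtain ⟨s', rfl⟩ := h K s
  exact ⟨s' (IsLocalRing.closedPoint K), rfl⟩

/-! ### Connected over an algebraically closed field implies geometrically connected -/

/-- Over an algebraically closed field, the fibre of a base change `X_K ⟶ X` over a closed point
is a subsingleton. -/
theorem fibre_subsingleton_of_closedPoint {k : Type u} [Field k] [IsAlgClosed k] {X : Scheme.{u}}
    (f : X ⟶ Spec (CommRingCat.of k)) [LocallyOfFiniteType f] {K : Type u} [Field K]
    (y : Spec (CommRingCat.of K) ⟶ Spec (CommRingCat.of k)) (x : X) (hx : IsClosed {x})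
    (z z' : ↥(pullback f y)) (hz : pullback.fst f y z = x) (hz' : pullback.fst f y z' = x) :
    z = z' := by
  let p : Spec (CommRingCat.of k) ⟶ X := pointOfClosedPoint f x hx
  have hp : p ≫ f = 𝟙 _ := pointOfClosedPoint_comp f x hx
  have hpx : p (IsLocalRing.closedPoint k) = x := pointOfClosedPoint_apply f x hx _
  obtain ⟨w, hw1, hw2⟩ := Scheme.Pullback.exists_preimage_pullback (f := p)
    (g := pullback.fst f y) (IsLocalRing.closedPoint k) z (hpx.trans hz.symm)
  obtain ⟨w', hw1', hw2'⟩ := Scheme.Pullback.exists_preimage_pullback (f := p)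
    (g := pullback.fst f y) (IsLocalRing.closedPoint k) z' (hpx.trans hz'.symm)
  have : IsIso (p ≫ f) := hp ▸ inferInstance
  have : IsIso (pullback.snd (p ≫ f) y) := inferInstance
  have hsub : Subsingleton ↥(pullback p (pullback.fst f y)) := by
    have e1 := (pullbackRightPullbackFstIso f y p).hom.homeomorph
    have e2 := (pullback.snd (p ≫ f) y).homeomorph
    exact (e1.trans e2).subsingleton
  rw [← hw2, ← hw2', Subsingleton.elim w w']

/-- A connected scheme locally of finite type over an algebraically closed field is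
geometrically connected. -/
theorem geometricallyConnected_of_isAlgClosed {k : Type u} [Field k] [IsAlgClosed k]
    {X : Scheme.{u}} (f : X ⟶ Spec (CommRingCat.of k)) [LocallyOfFiniteType f]
    [ConnectedSpace X] : GeometricallyConnected f := by
  refine ⟨geometrically_iff_of_isClosedUnderIsomorphisms.mpr fun K _ y ↦ ?_⟩
  have : JacobsonSpace X := LocallyOfFiniteType.jacobsonSpace f
  have : Surjective y := ⟨fun a => ⟨IsLocalRing.closedPoint K, Subsingleton.elim _ _⟩⟩
  have hπs : Function.Surjective (pullback.fst f y) := (pullback.fst f y).surjective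
  have hπo : IsOpenMap (pullback.fst f y) := (pullback.fst f y).isOpenMap
  rw [connectedSpace_iff_clopen]
  refine ⟨?_, fun T hT => ?_⟩
  · obtain ⟨x⟩ := (inferInstance : Nonempty X)
    obtain ⟨z, -⟩ := hπs x
    exact ⟨z⟩
  · by_contra hcon
    rw [not_or] at hcon
    obtain ⟨hT1, hT2⟩ := hcon
    have hT1' : T.Nonempty := Set.nonempty_iff_ne_empty.mpr hT1
    have hT2' : (Tᶜ).Nonempty := Set.nonempty_compl.mpr hT2
    have hU : IsOpen (pullback.fst f y '' T) := hπo _ hT.isOpen
    have hV : IsOpen (pullback.fst f y '' Tᶜ) := hπo _ hT.compl.isOpen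
    have hcov : (Set.univ : Set X) ⊆ pullback.fst f y '' T ∪ pullback.fst f y '' Tᶜ := by
      intro x _
      obtain ⟨z, rfl⟩ := hπs x
      by_cases hz : z ∈ T
      · exact Or.inl ⟨z, hz, rfl⟩
      · exact Or.inr ⟨z, hz, rfl⟩
    have hne : (Set.univ ∩ (pullback.fst f y '' T ∩ pullback.fst f y '' Tᶜ)).Nonempty :=
      isPreconnected_univ _ _ hU hV hcov
        (by rw [Set.univ_inter]; exact hT1'.image _) (by rw [Set.univ_inter]; exact hT2'.image _)
    rw [Set.univ_inter] at hne
    obtain ⟨x, ⟨hx1, hx2⟩, hxc⟩ := nonempty_inter_closedPoints hne (hU.inter hV).isLocallyClosed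
    obtain ⟨z, hzT, hz⟩ := hx1
    obtain ⟨z', hzT', hz'⟩ := hx2
    have := fibre_subsingleton_of_closedPoint f y x hxc z z' hz hz'
    exact hzT' (this ▸ hzT)

/-- Locally of finite type over a field implies quasi-separated. -/
theorem quasiSeparated_of_locallyOfFiniteType_field {k : Type u} [Field k] {X : Scheme.{u}}
    (f : X ⟶ Spec (CommRingCat.of k)) [LocallyOfFiniteType f] : QuasiSeparated f := by
  have : IsLocallyNoetherian X := LocallyOfFiniteType.isLocallyNoetherian f
  have : QuasiSeparatedSpace X := inferInstance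
  infer_instance

/-! ### Fibre powers -/

/-- Auxiliary: the `n`-fold fibre power of `c : C ⟶ S` with its structure map
(`C^0 = S`, `C^(n+1) = C ×_S C^n`). -/
noncomputable def fibPowAux {C S : Scheme.{u}} (c : C ⟶ S) : ℕ → (Σ Y : Scheme.{u}, (Y ⟶ S))
  | 0 => ⟨S, 𝟙 S⟩
  | (n + 1) => ⟨pullback c (fibPowAux c n).2,
      pullback.snd c (fibPowAux c n).2 ≫ (fibPowAux c n).2⟩

/-- The `n`-fold fibre power of `c : C ⟶ S`. -/
noncomputable abbrev fibPow {C S : Scheme.{u}} (c : C ⟶ S) (n : ℕ) : Scheme.{u} :=
  (fibPowAux c n).1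

/-- The structure map of the `n`-fold fibre power. -/
noncomputable abbrev fibPowHom {C S : Scheme.{u}} (c : C ⟶ S) (n : ℕ) : fibPow c n ⟶ S :=
  (fibPowAux c n).2

theorem fibPowHom_zero {C S : Scheme.{u}} (c : C ⟶ S) : fibPowHom c 0 = 𝟙 S := rfl

theorem fibPowHom_succ {C S : Scheme.{u}} (c : C ⟶ S) (n : ℕ) :
    fibPowHom c (n + 1) = pullback.snd c (fibPowHom c n) ≫ fibPowHom c n := rfl

instance fibPow_isProper {C S : Scheme.{u}} (c : C ⟶ S) [IsProper c] (n : ℕ) :
    IsProper (fibPowHom c n) := by
  induction n with
  | zero => exact (inferInstance : IsProper (𝟙 S))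
  | succ n ih =>
    exact (inferInstance : IsProper (pullback.snd c (fibPowHom c n) ≫ fibPowHom c n))

instance fibPow_universallyOpen {C S : Scheme.{u}} (c : C ⟶ S) [UniversallyOpen c] (n : ℕ) :
    UniversallyOpen (fibPowHom c n) := by
  induction n with
  | zero => exact (inferInstance : UniversallyOpen (𝟙 S))
  | succ n ih =>
    exact (inferInstance : UniversallyOpen (pullback.snd c (fibPowHom c n) ≫ fibPowHom c n))

theorem geometricallyConnected_id (S : Scheme.{u}) : GeometricallyConnected (𝟙 S) := by
  refine ⟨geometrically_iff_of_isClosedUnderIsomorphisms.mpr fun K _ x ↦ ?_⟩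
  exact (pullback.snd (𝟙 S) x).homeomorph.connectedSpace_iff.mpr inferInstance

instance fibPow_geometricallyConnected {C S : Scheme.{u}} (c : C ⟶ S) [UniversallyOpen c]
    [GeometricallyConnected c] (n : ℕ) : GeometricallyConnected (fibPowHom c n) := by
  induction n with
  | zero => exact geometricallyConnected_id S
  | succ n ih =>
    exact GeometricallyConnected.comp (pullback.snd c (fibPowHom c n)) (fibPowHom c n)

/-! ### Iterated addition of points -/

/-- One step of the iterated addition map: from `m : Y ⟶ J` over `S` and the addition map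
`a : C ×_S J ⟶ J`, the map `C ×_S Y ⟶ J`, `(x, y) ↦ a (x, m y)`. -/
noncomputable def addStep {C S J Y : Scheme.{u}} (c : C ⟶ S) (j : J ⟶ S) (a : pullback c j ⟶ J)
    (y : Y ⟶ S) (m : Y ⟶ J) (hm : m ≫ j = y) : pullback c y ⟶ J :=
  pullback.map c y c j (𝟙 C) m (𝟙 S) (by simp) (by rw [Category.comp_id, hm]) ≫ a

theorem addStep_comp {C S J Y : Scheme.{u}} (c : C ⟶ S) (j : J ⟶ S) (a : pullback c j ⟶ J)
    (ha : a ≫ j = pullback.snd c j ≫ j) (y : Y ⟶ S) (m : Y ⟶ J) (hm : m ≫ j = y) :
    addStep c j a y m hm ≫ j = pullback.snd c y ≫ y := by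
  unfold addStep
  rw [Category.assoc, ha, ← Category.assoc, pullback.lift_snd, Category.assoc, hm]

theorem lift_addStep {C S J Y T : Scheme.{u}} (c : C ⟶ S) (j : J ⟶ S) (a : pullback c j ⟶ J)
    (y : Y ⟶ S) (m : Y ⟶ J) (hm : m ≫ j = y) (x : T ⟶ C) (s : T ⟶ Y) (h : x ≫ c = s ≫ y) :
    pullback.lift x s h ≫ addStep c j a y m hm =
      pullback.lift x (s ≫ m) (by rw [h, Category.assoc, hm]) ≫ a := by
  unfold addStep
  rw [← Category.assoc]
  congr 1
  apply pullback.hom_ext <;>
    simp only [Category.assoc, pullback.lift_fst, pullback.lift_snd,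
      pullback.lift_snd_assoc, Category.comp_id]

/-- The iterated addition map `C^n ⟶ J`, `(x₁, …, xₙ) ↦ a(x₁, a(x₂, … a(xₙ, z)))`, together with
the proof that it is a morphism over `S`. -/
noncomputable def iterAddAux {C S J : Scheme.{u}} (c : C ⟶ S) (j : J ⟶ S) (a : pullback c j ⟶ J)
    (ha : a ≫ j = pullback.snd c j ≫ j) (z : S ⟶ J) (hz : z ≫ j = 𝟙 S) :
    (n : ℕ) → {m : fibPow c n ⟶ J // m ≫ j = fibPowHom c n}
  | 0 => ⟨z, hz⟩
  | (n + 1) =>
    ⟨addStep c j a (fibPowHom c n) (iterAddAux c j a ha z hz n).1 (iterAddAux c j a ha z hz n).2,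
      addStep_comp c j a ha (fibPowHom c n) _ _⟩

/-- The iterated addition map `C^n ⟶ J`. -/
noncomputable def iterAdd {C S J : Scheme.{u}} (c : C ⟶ S) (j : J ⟶ S) (a : pullback c j ⟶ J)
    (ha : a ≫ j = pullback.snd c j ≫ j) (z : S ⟶ J) (hz : z ≫ j = 𝟙 S) (n : ℕ) :
    fibPow c n ⟶ J := (iterAddAux c j a ha z hz n).1

theorem iterAdd_comp {C S J : Scheme.{u}} (c : C ⟶ S) (j : J ⟶ S) (a : pullback c j ⟶ J)
    (ha : a ≫ j = pullback.snd c j ≫ j) (z : S ⟶ J) (hz : z ≫ j = 𝟙 S) (n : ℕ) :
    iterAdd c j a ha z hz n ≫ j = fibPowHom c n :=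
  (iterAddAux c j a ha z hz n).2

theorem iterAdd_zero {C S J : Scheme.{u}} (c : C ⟶ S) (j : J ⟶ S) (a : pullback c j ⟶ J)
    (ha : a ≫ j = pullback.snd c j ≫ j) (z : S ⟶ J) (hz : z ≫ j = 𝟙 S) :
    iterAdd c j a ha z hz 0 = z := rfl

theorem iterAdd_succ {C S J : Scheme.{u}} (c : C ⟶ S) (j : J ⟶ S) (a : pullback c j ⟶ J)
    (ha : a ≫ j = pullback.snd c j ≫ j) (z : S ⟶ J) (hz : z ≫ j = 𝟙 S) (n : ℕ) :
    iterAdd c j a ha z hz (n + 1) =
      addStep c j a (fibPowHom c n) (iterAdd c j a ha z hz n) (iterAdd_comp c j a ha z hz n) :=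
  rfl

/-- The `T`-points of `J` reachable from the zero section `z` by adding `n` points of `C`
with the addition map `a`. -/
inductive Reach {C S J : Scheme.{u}} (c : C ⟶ S) (j : J ⟶ S) (a : pullback c j ⟶ J) (z : S ⟶ J)
    {T : Scheme.{u}} : ℕ → (T ⟶ J) → Prop
  | zero (σ : T ⟶ S) : Reach c j a z 0 (σ ≫ z)
  | succ (n : ℕ) (x : T ⟶ C) (s : T ⟶ J) (h : x ≫ c = s ≫ j) (hs : Reach c j a z n s) :
      Reach c j a z (n + 1) (pullback.lift x s h ≫ a)

/-- A reachable point factors through the iterated addition map. -/
theorem Reach.exists_lift {C S J : Scheme.{u}} {c : C ⟶ S} {j : J ⟶ S} {a : pullback c j ⟶ J}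
    (ha : a ≫ j = pullback.snd c j ≫ j) {z : S ⟶ J} (hz : z ≫ j = 𝟙 S)
    {T : Scheme.{u}} {n : ℕ} {s : T ⟶ J} (h : Reach c j a z n s) :
    ∃ s' : T ⟶ fibPow c n, s' ≫ iterAdd c j a ha z hz n = s := by
  induction h with
  | zero σ => exact ⟨σ, rfl⟩
  | succ n x s h hs ih =>
    obtain ⟨s', rfl⟩ := ih
    refine ⟨pullback.lift x s' (by rw [h, Category.assoc, iterAdd_comp]), ?_⟩
    rw [iterAdd_succ]
    exact lift_addStep c j a (fibPowHom c n) _ _ x s' _

/-- If every geometric point of `J` is reachable by adding `g` points, the iterated addition map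
`C^g ⟶ J` is surjective. -/
theorem surjective_iterAdd_of_reach {C S J : Scheme.{u}} (c : C ⟶ S) (j : J ⟶ S)
    (a : pullback c j ⟶ J) (ha : a ≫ j = pullback.snd c j ≫ j) (z : S ⟶ J) (hz : z ≫ j = 𝟙 S)
    (g : ℕ)
    (hreach : ∀ (K : Type u) [Field K] [IsAlgClosed K] (s : Spec (CommRingCat.of K) ⟶ J),
      Reach c j a z g s) :
    Surjective (iterAdd c j a ha z hz g) :=
  surjective_of_geometric_points_lift _ fun K _ _ s => (hreach K s).exists_lift ha hz

/-! ### Main generic results -/

section Main

variable {k : Type u} [Field k] [IsAlgClosed k] {C J : Scheme.{u}}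
  (c : C ⟶ Spec (CommRingCat.of k)) [IsProper c] [ConnectedSpace C]
  (j : J ⟶ Spec (CommRingCat.of k))

/-- A proper connected scheme over an algebraically closed field is geometrically connected. -/
theorem geometricallyConnected_of_isProper_of_connected : GeometricallyConnected c :=
  geometricallyConnected_of_isAlgClosed c

omit [IsAlgClosed k] in
/-- General form: a surjection from a proper geometrically connected `k`-scheme. -/
theorem properties_of_surjection {Y : Scheme.{u}} (y : Y ⟶ Spec (CommRingCat.of k)) [IsProper y]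
    [GeometricallyConnected y] (m : Y ⟶ J) [Surjective m] (hm : m ≫ j = y) :
    QuasiCompact j ∧ UniversallyClosed j ∧ GeometricallyConnected j := by
  subst hm
  exact ⟨quasiCompact_of_comp_surjective m j, UniversallyClosed.of_comp_surjective m j,
    geometricallyConnected_of_comp_surjective m j⟩

variable (a : pullback c j ⟶ J) (ha : a ≫ j = pullback.snd c j ≫ j)
  (z : Spec (CommRingCat.of k) ⟶ J) (hz : z ≫ j = 𝟙 _) (g : ℕ)
  (hreach : ∀ (K : Type u) [Field K] [IsAlgClosed K] (s : Spec (CommRingCat.of K) ⟶ J),
    Reach c j a z g s)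

include ha hz hreach

theorem properties_of_reach :
    QuasiCompact j ∧ UniversallyClosed j ∧ GeometricallyConnected j := by
  have : GeometricallyConnected c := geometricallyConnected_of_isAlgClosed c
  have : Surjective (iterAdd c j a ha z hz g) :=
    surjective_iterAdd_of_reach c j a ha z hz g hreach
  exact properties_of_surjection j (fibPowHom c g) (iterAdd c j a ha z hz g)
    (iterAdd_comp c j a ha z hz g)

theorem quasiCompact_of_reach : QuasiCompact j :=
  (properties_of_reach c j a ha z hz g hreach).1

theorem universallyClosed_of_reach : UniversallyClosed j :=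
  (properties_of_reach c j a ha z hz g hreach).2.1

theorem geometricallyConnected_of_reach : GeometricallyConnected j :=
  (properties_of_reach c j a ha z hz g hreach).2.2

theorem isProper_of_reach [IsSeparated j] [LocallyOfFiniteType j] : IsProper j := by
  have : UniversallyClosed j := universallyClosed_of_reach c j a ha z hz g hreach
  exact {}

end Main

end Fermat.Agent.S25.PROP.H5970
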