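import Fermat.Agent.S25.PROP.H5970.ChartPts
import Fermat.Agent.S25.AlgDefs
import Fermat.Agent.S25.BC

/-!
# S25 / PROP (helper5970): points of the Jacobian and glued modules

`Rep 𝒟 hrep R s N`: the `R`-point `s` of the representing scheme corresponds (through the
dictionary `𝒟` and the Poincaré bundle) to the glued module `N` over `𝒞.chart R`.
Existence, uniqueness up to isomorphism, extensionality (`Rep.ext`: two points with the same
module are equal), `IsPic0`, base change, existence of a point for every `IsPic0` module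
(`exists_point`), and the zero section (`rep_zero`).
-/

set_option autoImplicit false

universe u

namespace Fermat.Agent.S25.PROP.H5970

open CategoryTheory CategoryTheory.Limits AlgebraicGeometry AlgebraicGeometry.RelPicard
  NeronModelInfra GoodReductionJacobian

variable {k : Type u} [Field k]

variable {C : Scheme.{u}} {c : C ⟶ Spec (CommRingCat.of k)}
  {ε : SchemeHomOver (𝟙 (Spec (CommRingCat.of k))) c}

/-- Pulling back along a composite is pulling back twice (up to isomorphism). -/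
theorem pullbackAlong_postComp {X X' T' : Scheme.{u}} {x : X ⟶ Spec (CommRingCat.of k)}
    {x' : X' ⟶ Spec (CommRingCat.of k)} {t' : T' ⟶ Spec (CommRingCat.of k)}
    (M : RigidifiedLineBundle c ε x') (φ : SchemeHomOver x x') (ψ : SchemeHomOver t' x) :
    Nonempty (((M.pullbackAlong φ).pullbackAlong ψ).L ≅ (M.pullbackAlong (postComp φ ψ)).L) :=
  ⟨(Scheme.Modules.pullbackComp _ _).app M.L ≪≫
    (Scheme.Modules.pullbackCongr (baseChangeSnd_comp c φ ψ)).app M.L⟩

variable {𝒞 : CurveData k} (𝒟 : Dictionary c ε 𝒞) {D : RelativePic0Designation k c}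
  (hrep : RepresentsRelSubPic c ε (algEquivZeroCut c ε) D)

/-- `Rep s N`: the `R`-point `s` of the Jacobian corresponds to the glued module `N`. -/
def Rep (R : Type u) [CommRing R] [Algebra k R] (s : SchemeHomOver (tR k R) D.toBase)
    (N : GluedModule (𝒞.chart R)) : Prop :=
  𝒟.Corr R (hrep.poincare.pullbackAlong s).L N

variable {𝒟 hrep}

section

variable {R : Type u} [CommRing R] [Algebra k R]

theorem exists_rep (s : SchemeHomOver (tR k R) D.toBase) : ∃ N, Rep 𝒟 hrep R s N :=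
  𝒟.exists_glued _ (hrep.poincare.pullbackAlong s).isInvertible

theorem Rep.iso {s : SchemeHomOver (tR k R) D.toBase} {N N' : GluedModule (𝒞.chart R)}
    (h : Rep 𝒟 hrep R s N) (h' : Rep 𝒟 hrep R s N') : Nonempty (N.Iso N') :=
  (𝒟.iso_iff h h').mp ⟨Iso.refl _⟩

theorem Rep.congr {s : SchemeHomOver (tR k R) D.toBase} {N N' : GluedModule (𝒞.chart R)}
    (h : Rep 𝒟 hrep R s N) (e : Nonempty (N.Iso N')) : Rep 𝒟 hrep R s N' :=
  𝒟.congr h ⟨Iso.refl _⟩ e

theorem Rep.ext {s s' : SchemeHomOver (tR k R) D.toBase} {N : GluedModule (𝒞.chart R)}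
    (h : Rep 𝒟 hrep R s N) (h' : Rep 𝒟 hrep R s' N) : s = s' :=
  hrep.ext_of_iso (tR k R) s s' ((𝒟.iso_iff h h').mpr ⟨GluedModule.Iso.refl N⟩)

theorem Rep.isPic0
    (hdeg : ∀ {T : Scheme.{u}} (t : T ⟶ Spec (CommRingCat.of k))
      (M : RigidifiedLineBundle c ε t), FibrewiseAlgEquivZero M ↔ IsDeg0 𝒟 t M)
    {s : SchemeHomOver (tR k R) D.toBase} {N : GluedModule (𝒞.chart R)}
    (h : Rep 𝒟 hrep R s N) : IsPic0 𝒞 N := by
  refine ⟨𝒟.inv_right h, (𝒟.rigid_iff h).mp (hrep.poincare.pullbackAlong s).rigidified, ?_⟩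
  intro κ _ _ _ φ N' hBC
  have hFAE : FibrewiseAlgEquivZero (hrep.poincare.pullbackAlong s) :=
    (algEquivZeroCut c ε).pullback_mem _ _ s _ hrep.poincare_mem
  exact (hdeg _ _).mp hFAE κ (specHomOver k φ) N' (𝒟.bc φ h hBC)

/-- Base change of `Rep`. -/
theorem Rep.bc {R' : Type u} [CommRing R'] [Algebra k R'] (φ : R →ₐ[k] R')
    {s : SchemeHomOver (tR k R) D.toBase} {N : GluedModule (𝒞.chart R)}
    {N' : GluedModule (𝒞.chart R')} (h : Rep 𝒟 hrep R s N)
    (hBC : GluedModule.IsBC (𝒞.chartHom φ) N N') :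
    Rep 𝒟 hrep R' (postComp s (specHomOver k φ)) N' :=
  𝒟.congr (𝒟.bc φ h hBC) (pullbackAlong_postComp hrep.poincare s (specHomOver k φ))
    ⟨GluedModule.Iso.refl N'⟩

/-- Every `Pic⁰` glued module over `R` is represented by an `R`-point of the Jacobian. -/
theorem exists_point
    (hdeg : ∀ {T : Scheme.{u}} (t : T ⟶ Spec (CommRingCat.of k))
      (M : RigidifiedLineBundle c ε t), FibrewiseAlgEquivZero M ↔ IsDeg0 𝒟 t M)
    {N : GluedModule (𝒞.chart R)} (hN : IsPic0 𝒞 N) :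
    ∃ s : SchemeHomOver (tR k R) D.toBase, Rep 𝒟 hrep R s N := by
  obtain ⟨M, hM⟩ := 𝒟.exists_module N hN.lineBundle
  let Mr : RigidifiedLineBundle c ε (tR k R) := ⟨M, 𝒟.inv_left hM, (𝒟.rigid_iff hM).mpr hN.rigid⟩
  have hFAE : FibrewiseAlgEquivZero Mr := by
    refine (hdeg _ Mr).mpr fun κ _ _ _ s' N'' hC => ?_
    obtain ⟨φ, rfl⟩ := exists_algHom_of_specHomOver s'
    obtain ⟨N₃, hBC⟩ := exists_isBC 𝒞 φ N
    have h3 := 𝒟.bc φ hM hBC
    have e : Nonempty (N₃.Iso N'') := (𝒟.iso_iff h3 hC).mp ⟨Iso.refl _⟩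
    rw [← chi_congr 𝒞 N₃ N'' e]
    exact hN.deg0 κ φ N₃ hBC
  refine ⟨hrep.classify (tR k R) Mr hFAE, ?_⟩
  obtain ⟨i⟩ := hrep.classify_spec (tR k R) Mr hFAE
  exact 𝒟.congr hM ⟨i.symm⟩ ⟨GluedModule.Iso.refl N⟩

variable (𝒟 hrep R) in
/-- The zero section corresponds to the structure sheaf. -/
theorem rep_zero :
    Rep 𝒟 hrep R (⟨tR k R ≫ D.zeroSection, by
      rw [Category.assoc, D.zeroSection_toBase, Category.comp_id]⟩ :
        SchemeHomOver (tR k R) D.toBase) (GluedModule.unit (𝒞.chart R)) := by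
  let z : SchemeHomOver (𝟙 (Spec (CommRingCat.of k))) D.toBase :=
    ⟨D.zeroSection, D.zeroSection_toBase⟩
  let τ : SchemeHomOver (tR k R) (𝟙 (Spec (CommRingCat.of k))) := ⟨tR k R, Category.comp_id _⟩
  obtain ⟨i₁⟩ := pullbackAlong_postComp hrep.poincare z τ
  obtain ⟨i₂⟩ := RigidifiedLineBundle.pullbackAlong_congr τ hrep.zero
  have i₃ : ((RigidifiedLineBundle.unit (c := c) (ε := ε)
      (𝟙 (Spec (CommRingCat.of k)))).pullbackAlong τ).L ≅
      SheafOfModules.unit (pullback c (tR k R)).ringCatSheaf :=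
    Scheme.Modules.pullbackUnitIso _
  exact 𝒟.congr (𝒟.unit R) ⟨(i₁.symm ≪≫ i₂ ≪≫ i₃).symm⟩ ⟨GluedModule.Iso.refl _⟩

end

end Fermat.Agent.S25.PROP.H5970
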